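import Fermat.Agent.GS.Abs.LocGood
import Fermat.Agent.GR.E.E3b
import Fermat.Agent.LP.EIS.VDefs
import Fermat.Agent.LP.EIS.VExt

/-!
# LP-PL-GOOD, file Abs: the centre of a valuation subring `W ≤ 𝒪₁` on a nodal chart; good points

`R` a DVR with uniformizer `ϖ`, `F` a field, `𝒪₁ 𝒪₂` the two Gauss rings, `C` a nodal chart (`GS.NodalChart ϖ 𝒪₁ 𝒪₂ C`),
`W ≤ 𝒪₁` a valuation subring containing `C`.  `cen C W` is the prime ideal `C ∩ 𝔪_W`.

* `vert_le_cen`: `x ∈ vert ϖ 𝒪₁ C ↔ x / ϖ ∈ 𝒪₁` (`GS.mem_vert`); then `x = ϖ * (x / ϖ) ∈ 𝔪_𝒪₁ ⊆ 𝔪_W` (`ϖ ∈ 𝔪_𝒪₁` because `ϖ⁻¹ ∉ 𝒪₁`).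
* `cen_eq_vert_or_isMaximal`: `C ⧸ vert ϖ 𝒪₁ C` is a Dedekind domain: the image of `cen` is a prime ideal; it is `⊥` or maximal
  (`Ring.DimensionLEOne.maximalOfPrime` / `Ideal.IsPrime.isMaximal`); pull back (`Ideal.comap_map_of_surjective`, `Ideal.comap_isMaximal_of_surjective`).
* `eq_of_cen_eq_vert`: `x ∈ 𝒪₁`; `hC.frac₁ x` gives `b ∈ C`, `b / ϖ ∉ 𝒪₁`, `x * b ∈ C`; `b ∉ vert = cen` so `b⁻¹ ∈ W`, `x = (x * b) * b⁻¹ ∈ W`.
* `exists_mem_rootSet_not_mem_loc`: COPY the proof of `GR.E.exists_mem_rootSet_not_mem` (`GR/E/E3b.lean`); `hdiv` is only used for the valuation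
  subring `V` of a horizontal prime `f` of `A = C_𝔪` (`hV : x ∈ V ↔ ∃ s t : A, ¬ f ∣ t ∧ x * t = s`): it contains `C` (`t = 1`) and the inverses
  of the `s ∉ 𝔪` (units of `A`).
* `vdiv_of_good`: if `cen = vert ϖ 𝒪₁ C` then `W = 𝒪₁` and `a = 1`.  Otherwise `𝔪 = cen` is maximal, `B = locAt C 𝔪` is a good chart
  (`GS.locAt_goodChart`), `B ⊆ W` (`locAt_le`); `𝔫` a maximal ideal of `B` containing `cen B W` (`Ideal.exists_le_maximal`);
  `exists_mem_rootSet_not_mem_loc` for `(B, 𝔫)`: `a ^ n * w ∈ B ∖ 𝔫`, so it is a unit of `W`.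
-/

set_option autoImplicit false

namespace Fermat.Agent.LP.PL.Good

open Fermat.Agent.GR.E Fermat.Agent.GS Fermat.Agent.LP.EIS

variable {R : Type*} [CommRing R] {F : Type*} [Field F] [Algebra R F]

/-- the centre of `W` on `C`. -/
def cen (C : Subalgebra R F) (W : ValuationSubring F) (hCW : ∀ c ∈ C, c ∈ W) : Ideal C where
  carrier := {c | (c : F) ∈ W.nonunits}
  add_mem' := fun {a b} ha hb => W.nonunits.add_mem ha hb
  zero_mem' := W.nonunits.zero_mem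
  smul_mem' := fun c x hx => VExt_mul_mem_nonunits (hCW c c.2) hx

theorem mem_cen {C : Subalgebra R F} {W : ValuationSubring F} {hCW : ∀ c ∈ C, c ∈ W} {c : C} :
    c ∈ cen C W hCW ↔ (c : F) ∈ W.nonunits := Iff.rfl

theorem cen_isPrime (C : Subalgebra R F) (W : ValuationSubring F) (hCW : ∀ c ∈ C, c ∈ W) :
    (cen C W hCW).IsPrime := by
  refine ⟨?_, ?_⟩
  · rw [Ideal.ne_top_iff_one, mem_cen, ValuationSubring.mem_nonunits_iff]
    simp
  · intro a b hab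
    by_contra hcon
    rw [not_or] at hcon
    obtain ⟨ha, hb⟩ := hcon
    rw [mem_cen, ValuationSubring.mem_nonunits_iff_or, not_or, not_not] at ha hb
    rw [mem_cen, ValuationSubring.mem_nonunits_iff_or] at hab
    rcases hab with h | h
    · rw [Subalgebra.coe_mul] at h
      exact (mul_ne_zero ha.1 hb.1) h
    · apply h
      rw [Subalgebra.coe_mul, mul_inv]
      exact W.mul_mem _ _ ha.2 hb.2

/-- an element of `C` outside the centre is a unit of `W`. -/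
theorem inv_mem_of_not_mem_cen {C : Subalgebra R F} {W : ValuationSubring F}
    {hCW : ∀ c ∈ C, c ∈ W} {c : C} (hc : c ∉ cen C W hCW) : (c : F)⁻¹ ∈ W := by
  rw [mem_cen, ValuationSubring.mem_nonunits_iff_or, not_or, not_not] at hc
  exact hc.2

theorem locAt_le (C : Subalgebra R F) (W : ValuationSubring F) (hCW : ∀ c ∈ C, c ∈ W)
    [(cen C W hCW).IsPrime] {x : F} (hx : x ∈ locAt C (cen C W hCW)) : x ∈ W := by
  obtain ⟨s, hs, hxs⟩ := mem_locAt.1 hx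
  have hs0 : (s : F) ≠ 0 := fun h => hs (by rw [mem_cen, h]; exact W.nonunits.zero_mem)
  have e : x = (x * s) * (s : F)⁻¹ := by field_simp
  rw [e]
  exact W.mul_mem _ _ (hCW _ hxs) (inv_mem_of_not_mem_cen hs)

variable [IsDomain R] [IsDiscreteValuationRing R] {ϖ : R} {𝒪₁ 𝒪₂ : ValuationSubring F}

omit [IsDomain R] [IsDiscreteValuationRing R] in
theorem unif_mem_nonunits (hG₁ : GaussRing ϖ 𝒪₁) : algebraMap R F ϖ ∈ 𝒪₁.nonunits := by
  rw [ValuationSubring.mem_nonunits_iff_or]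
  exact Or.inr hG₁.inv_not_mem

omit [IsDomain R] [IsDiscreteValuationRing R] in
theorem vert_le_cen (hG₁ : GaussRing ϖ 𝒪₁) {C : Subalgebra R F} (hle : ∀ x ∈ C, x ∈ 𝒪₁)
    {W : ValuationSubring F} (hW : W ≤ 𝒪₁) (hCW : ∀ c ∈ C, c ∈ W) :
    vert ϖ 𝒪₁ C ≤ cen C W hCW := by
  rw [vert, Ideal.span_le]
  intro x hx
  have hx : (x : F) / algebraMap R F ϖ ∈ 𝒪₁ := hx
  show x ∈ cen C W hCW
  rw [mem_cen]
  apply ValuationSubring.nonunits_le_nonunits.2 hW
  have e : (x : F) = ((x : F) / algebraMap R F ϖ) * algebraMap R F ϖ := by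
    rw [div_mul_cancel₀ _ hG₁.ne_zero]
  rw [e]
  exact VExt_mul_mem_nonunits hx (unif_mem_nonunits hG₁)

theorem eq_of_cen_eq_vert (hG₁ : GaussRing ϖ 𝒪₁) {C : Subalgebra R F}
    (hC : NodalChart ϖ 𝒪₁ 𝒪₂ C) {W : ValuationSubring F} (hW : W ≤ 𝒪₁) (hCW : ∀ c ∈ C, c ∈ W)
    (h : cen C W hCW = vert ϖ 𝒪₁ C) : W = 𝒪₁ := by
  refine le_antisymm hW ?_
  intro x hx
  obtain ⟨b, hbC, hb, hxb⟩ := hC.frac₁ x hx
  have hb' : (⟨b, hbC⟩ : C) ∉ cen C W hCW := by
    rw [h, mem_vert hC.le₁]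
    exact hb
  have hb0 : b ≠ 0 := by
    rintro rfl
    apply hb
    rw [zero_div]
    exact 𝒪₁.zero_mem
  have hinv : b⁻¹ ∈ W := inv_mem_of_not_mem_cen hb'
  have e : x = (x * b) * b⁻¹ := by field_simp
  rw [e]
  exact W.mul_mem _ _ (hCW _ hxb) hinv

theorem cen_eq_vert_or_isMaximal (hG₁ : GaussRing ϖ 𝒪₁) {C : Subalgebra R F}
    (hC : NodalChart ϖ 𝒪₁ 𝒪₂ C) {W : ValuationSubring F} (hW : W ≤ 𝒪₁) (hCW : ∀ c ∈ C, c ∈ W) :
    cen C W hCW = vert ϖ 𝒪₁ C ∨ (cen C W hCW).IsMaximal := by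
  have hP : (vert ϖ 𝒪₁ C).IsPrime := vert_isPrime hG₁ hC.le₁
  have hQ := cen_isPrime C W hCW
  have hPQ := vert_le_cen hG₁ hC.le₁ hW hCW
  have hded := hC.ded₁
  have hsurj : Function.Surjective (Ideal.Quotient.mk (vert ϖ 𝒪₁ C)) :=
    Ideal.Quotient.mk_surjective
  have hker : RingHom.ker (Ideal.Quotient.mk (vert ϖ 𝒪₁ C)) ≤ cen C W hCW := by
    rw [Ideal.mk_ker]; exact hPQ
  have hmapPrime : ((cen C W hCW).map (Ideal.Quotient.mk (vert ϖ 𝒪₁ C))).IsPrime :=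
    Ideal.map_isPrime_of_surjective hsurj hker
  have hcomap : ((cen C W hCW).map (Ideal.Quotient.mk (vert ϖ 𝒪₁ C))).comap
      (Ideal.Quotient.mk (vert ϖ 𝒪₁ C)) = cen C W hCW := by
    rw [Ideal.comap_map_of_surjective _ hsurj, ← RingHom.ker_eq_comap_bot, sup_eq_left]
    exact hker
  by_cases hbot : (cen C W hCW).map (Ideal.Quotient.mk (vert ϖ 𝒪₁ C)) = ⊥
  · left
    refine le_antisymm ?_ hPQ
    rw [Ideal.map_eq_bot_iff_le_ker, Ideal.mk_ker] at hbot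
    exact hbot
  · right
    have hmax : ((cen C W hCW).map (Ideal.Quotient.mk (vert ϖ 𝒪₁ C))).IsMaximal :=
      hmapPrime.isMaximal hbot
    rw [← hcomap]
    exact Ideal.comap_isMaximal_of_surjective _ hsurj

/-- local form of `GR.E.exists_mem_rootSet_not_mem`. -/
theorem exists_mem_rootSet_not_mem_loc {𝒪 : ValuationSubring F} (hϖ : Irreducible ϖ)
    (hG : GaussRing ϖ 𝒪) {C : Subalgebra R F} (hC : GoodChart ϖ 𝒪 C) {n : ℕ} (hn : 0 < n) {w : F}
    (hw : w ∈ 𝒪) (hw' : w⁻¹ ∈ 𝒪) (hw0 : w ≠ 0)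
    (𝔪 : Ideal C) (h𝔪 : 𝔪.IsMaximal) (hϖ𝔪 : algebraMap R C ϖ ∈ 𝔪)
    (hdiv : ∀ V : ValuationSubring F, (∀ r : R, algebraMap R F r ∈ V) →
      (∀ r : R, (algebraMap R F r)⁻¹ ∈ V) → (∀ c ∈ C, c ∈ V) →
      (∀ s : C, s ∉ 𝔪 → (s : F)⁻¹ ∈ V) → VDiv V n w) :
    ∃ a : F, ∃ h : a ^ n * w ∈ C, (⟨a ^ n * w, h⟩ : C) ∉ 𝔪 := by
  classical
  have : IsFractionRing C F := E3b_isFractionRing hC
  have : IsNoetherianRing C := hC.noeth
  have : IsDedekindDomain (C ⧸ Ideal.span {algebraMap R C ϖ}) := hC.dedekind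
  have : 𝔪.IsPrime := h𝔪.isPrime
  have hπ0 : algebraMap R F ϖ ≠ 0 := hG.ne_zero
  let A : Subalgebra C F :=
    Localization.subalgebra.ofField F 𝔪.primeCompl 𝔪.primeCompl_le_nonZeroDivisors
  have hloc : IsLocalization.AtPrime A 𝔪 :=
    Localization.subalgebra.isLocalization_ofField F _ _
  have : IsLocalRing A := IsLocalization.AtPrime.isLocalRing A 𝔪
  have : IsNoetherianRing A := IsLocalization.isNoetherianRing 𝔪.primeCompl A inferInstance
  have hAmem : ∀ x : F, x ∈ A ↔ ∃ (a s : C) (_ : s ∈ 𝔪.primeCompl),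
      x = algebraMap C F a * (algebraMap C F s)⁻¹ := fun x => Iff.rfl
  have hA𝒪 : ∀ x : A, (x : F) ∈ 𝒪 := by
    rintro ⟨x, hx⟩
    obtain ⟨a, s, hs, rfl⟩ := (hAmem x).1 hx
    exact 𝒪.mul_mem _ _ (hC.le _ a.2) (E3b_inv_mem hG hC 𝔪 hϖ𝔪 s hs)
  -- the uniformizer in `C` and in `A`
  set ϖC : C := algebraMap R C ϖ with hϖC
  set ϖA : A := algebraMap C A ϖC with hϖA
  have hϖAF : (ϖA : F) = algebraMap R F ϖ := rfl
  have hϖA0 : ϖA ≠ 0 := fun h => hπ0 (by rw [← hϖAF, h]; rfl)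
  -- `A / ϖ` is a local Dedekind domain, hence a PID
  have hM : Algebra.algebraMapSubmonoid (C ⧸ Ideal.span {ϖC}) 𝔪.primeCompl ≤
      nonZeroDivisors (C ⧸ Ideal.span {ϖC}) := by
    rintro _ ⟨s, hs, rfl⟩
    apply mem_nonZeroDivisors_of_ne_zero
    intro h0
    apply hs
    have : s ∈ Ideal.span {ϖC} := Ideal.Quotient.eq_zero_iff_mem.1 h0
    exact (Ideal.span_singleton_le_iff_mem _).2 hϖ𝔪 this
  have hdom : IsDomain (A ⧸ (Ideal.span {ϖC}).map (algebraMap C A)) :=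
    IsLocalization.isDomain_of_le_nonZeroDivisors (R := C ⧸ Ideal.span {ϖC})
      (A ⧸ (Ideal.span {ϖC}).map (algebraMap C A)) hM
  have hded : IsDedekindDomain (A ⧸ (Ideal.span {ϖC}).map (algebraMap C A)) :=
    IsLocalization.isDedekindDomain (C ⧸ Ideal.span {ϖC}) hM _
  have hI : (Ideal.span {ϖC}).map (algebraMap C A) = Ideal.span {ϖA} := by
    rw [Ideal.map_span, Set.image_singleton]
  rw [hI] at hded hdom
  have hnt : Nontrivial (A ⧸ Ideal.span {ϖA}) := hdom.toNontrivial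
  have hlocq : IsLocalRing (A ⧸ Ideal.span {ϖA}) :=
    IsLocalRing.of_surjective' (Ideal.Quotient.mk _) Ideal.Quotient.mk_surjective
  have hpid : IsPrincipalIdealRing (A ⧸ Ideal.span {ϖA}) :=
    IsDedekindDomain.isPrincipalIdealRing (A ⧸ Ideal.span {ϖA})
  have hprime : Prime ϖA := by
    rw [← Ideal.span_singleton_prime hϖA0]
    exact (Ideal.Quotient.isDomain_iff_prime _).1 hdom
  have hufd : UniqueFactorizationMonoid A := ufd_of_quotient_isPrincipalIdealRing ϖA hprime hpid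
  have hinj : Function.Injective (algebraMap A F) := IsFractionRing.injective A F
  have key : ∀ f : A, Prime f → ∃ a : F, a ≠ 0 ∧ ∃ s t : A, ¬ f ∣ s ∧ ¬ f ∣ t ∧
      a ^ n * w * algebraMap A F t = algebraMap A F s := by
    intro f hf
    by_cases hfϖ : f ∣ ϖA
    · -- the vertical prime
      have hass : Associated f ϖA := (hf.dvd_prime_iff_associated hprime).1 hfϖ
      obtain ⟨b, hb, hb', hwb⟩ := hC.frac w hw
      have hnd : ∀ x : A, (x : F) / algebraMap R F ϖ ∉ 𝒪 → ¬ f ∣ x := by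
        intro x hx hfx
        obtain ⟨y, hy⟩ := hass.dvd_iff_dvd_left.1 hfx
        apply hx
        have : (x : F) = algebraMap R F ϖ * (y : F) := by rw [hy]; rfl
        rw [this, mul_div_cancel_left₀ _ hπ0]
        exact hA𝒪 y
      refine ⟨1, one_ne_zero, algebraMap C A ⟨w * b, hwb⟩, algebraMap C A ⟨b, hb⟩,
        hnd _ ?_, hnd _ hb', ?_⟩
      · intro h
        apply hb'
        have h3 : b / algebraMap R F ϖ = w⁻¹ * (w * b / algebraMap R F ϖ) := by field_simp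
        rw [h3]
        exact 𝒪.mul_mem _ _ hw' h
      · rw [one_pow, one_mul]
        rfl
    · -- a horizontal prime
      obtain ⟨V, hV⟩ := exists_valuationSubring_of_prime (F := F) f hf
      have h1 : ∀ r : R, algebraMap R F r ∈ V := fun r =>
        (hV _).2 ⟨algebraMap C A (algebraMap R C r), 1, hf.not_dvd_one, by
          rw [map_one, mul_one]; rfl⟩
      have h2 : ∀ r : R, (algebraMap R F r)⁻¹ ∈ V := by
        intro r
        by_cases hr : r = 0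
        · rw [hr, map_zero, inv_zero]
          exact V.zero_mem
        obtain ⟨k, u, rfl⟩ := IsDiscreteValuationRing.eq_unit_mul_pow_irreducible hr hϖ
        have hu : IsUnit (algebraMap C A (algebraMap R C (u : R))) :=
          (u.isUnit.map (algebraMap R C)).map (algebraMap C A)
        have hne : algebraMap R F ((u : R) * ϖ ^ k) ≠ 0 := by
          rw [map_mul, map_pow]
          exact mul_ne_zero (u.isUnit.map (algebraMap R F)).ne_zero (pow_ne_zero _ hπ0)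
        refine (hV _).2 ⟨1, algebraMap C A (algebraMap R C ((u : R) * ϖ ^ k)), ?_, ?_⟩
        · rw [map_mul, map_mul, map_pow, map_pow]
          intro hd
          rcases hf.dvd_or_dvd hd with hd | hd
          · exact hf.not_isUnit (isUnit_of_dvd_unit hd hu)
          · exact hfϖ (hf.dvd_of_dvd_pow hd)
        · rw [map_one]
          exact inv_mul_cancel₀ hne
      have h3 : ∀ c ∈ C, c ∈ V := fun c hc =>
        (hV _).2 ⟨algebraMap C A ⟨c, hc⟩, 1, hf.not_dvd_one, by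
          rw [map_one, mul_one]; rfl⟩
      have h4 : ∀ s : C, s ∉ 𝔪 → (s : F)⁻¹ ∈ V := by
        intro s hs
        have hs0 : (s : F) ≠ 0 := by
          intro h
          apply hs
          have : s = 0 := Subtype.ext h
          rw [this]
          exact 𝔪.zero_mem
        refine (hV _).2 ⟨1, algebraMap C A s, ?_, ?_⟩
        · intro hd
          exact hf.not_isUnit (isUnit_of_dvd_unit hd
            ((IsLocalization.AtPrime.isUnit_to_map_iff A 𝔪 s).2 hs))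
        · rw [map_one]
          exact inv_mul_cancel₀ hs0
      obtain ⟨a, ha0, hV1, hV2⟩ := hdiv V h1 h2 h3 h4
      obtain ⟨s₁, t₁, ht₁, e₁⟩ := (hV _).1 hV1
      obtain ⟨s₂, t₂, ht₂, e₂⟩ := (hV _).1 hV2
      refine ⟨a, ha0, s₁, t₁, ?_, ht₁, e₁⟩
      intro hs₁
      have hne : a ^ n * w ≠ 0 := mul_ne_zero (pow_ne_zero _ ha0) hw0
      have e₃ : t₂ * t₁ = s₂ * s₁ := by
        apply hinj
        rw [map_mul, map_mul, ← e₁, ← e₂]
        field_simp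
      have : f ∣ t₂ * t₁ := e₃ ▸ Dvd.dvd.mul_left hs₁ s₂
      rcases hf.dvd_or_dvd this with h | h
      · exact ht₂ h
      · exact ht₁ h
  obtain ⟨a₁, ha₁, ε, hε⟩ := exists_pow_mul_eq_unit n hn w hw0 key
  obtain ⟨c, s', hs', hcs⟩ := (hAmem _).1 (ε : A).2
  have hs'0 : (s' : F) ≠ 0 := by
    intro h
    apply hs'
    have : s' = 0 := Subtype.ext h
    rw [this]
    exact 𝔪.zero_mem
  have hc : c ∈ 𝔪.primeCompl := by
    rw [← IsLocalization.AtPrime.isUnit_to_map_iff A 𝔪 c]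
    have hcA : algebraMap C A c = (ε : A) * algebraMap C A s' := by
      apply Subtype.ext
      show (c : F) = ((ε : A) : F) * (s' : F)
      rw [hcs]
      show (c : F) = (c : F) * (s' : F)⁻¹ * (s' : F)
      field_simp
    rw [hcA]
    exact ε.isUnit.mul ((IsLocalization.AtPrime.isUnit_to_map_iff A 𝔪 s').2 hs')
  obtain ⟨k, rfl⟩ : ∃ k, n = k + 1 := Nat.exists_eq_succ_of_ne_zero hn.ne'
  have e : (a₁ * (s' : F)) ^ (k + 1) * w = ((c * s' ^ k : C) : F) := by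
    have h4 : (a₁ * (s' : F)) ^ (k + 1) * w = (a₁ ^ (k + 1) * w) * (s' : F) ^ (k + 1) := by ring
    rw [h4, hε]
    show ((ε : A) : F) * (s' : F) ^ (k + 1) = (c : F) * (s' : F) ^ k
    rw [hcs]
    show (c : F) * (s' : F)⁻¹ * (s' : F) ^ (k + 1) = (c : F) * (s' : F) ^ k
    rw [pow_succ]
    field_simp
  refine ⟨a₁ * (s' : F), e ▸ (c * s' ^ k : C).2, ?_⟩
  have e' : (⟨(a₁ * (s' : F)) ^ (k + 1) * w, e ▸ (c * s' ^ k : C).2⟩ : C) = c * s' ^ k :=
    Subtype.ext e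
  rw [e']
  intro hmem
  rcases (inferInstance : 𝔪.IsPrime).mem_or_mem hmem with h | h
  · exact hc h
  · exact hs' ((inferInstance : 𝔪.IsPrime).mem_of_pow_mem _ h)

/-- **good points.** -/
theorem vdiv_of_good (hϖ : Irreducible ϖ) (hG₁ : GaussRing ϖ 𝒪₁) (hG₂ : GaussRing ϖ 𝒪₂)
    {C : Subalgebra R F} (hC : NodalChart ϖ 𝒪₁ 𝒪₂ C) {W : ValuationSubring F} (hW : W ≤ 𝒪₁)
    (hCW : ∀ c ∈ C, c ∈ W) (hgood : ¬ vert ϖ 𝒪₂ C ≤ cen C W hCW) {n : ℕ} (hn : 0 < n) {w : F}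
    (hw : w ∈ 𝒪₁) (hw' : w⁻¹ ∈ 𝒪₁) (hw0 : w ≠ 0)
    (hdiv : ∀ V : ValuationSubring F, (∀ r : R, algebraMap R F r ∈ V) →
      (∀ r : R, (algebraMap R F r)⁻¹ ∈ V) → (∀ c ∈ C, c ∈ V) →
      (∀ s : C, s ∉ cen C W hCW → (s : F)⁻¹ ∈ V) → VDiv V n w) :
    VDiv W n w := by
  have hprime := cen_isPrime C W hCW
  rcases cen_eq_vert_or_isMaximal hG₁ hC hW hCW with h | hmax
  · have hWO := eq_of_cen_eq_vert hG₁ hC hW hCW h
    refine ⟨1, one_ne_zero, ?_, ?_⟩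
    · rw [one_pow, one_mul, hWO]; exact hw
    · rw [one_pow, one_mul, hWO]; exact hw'
  · have hBgood : GoodChart ϖ 𝒪₁ (locAt C (cen C W hCW)) :=
      locAt_goodChart hϖ hG₁ hG₂ hC _ hmax (vert_le_cen hG₁ hC.le₁ hW hCW) hgood
    have hBW : ∀ x ∈ locAt C (cen C W hCW), x ∈ W := fun x hx => locAt_le C W hCW hx
    have hprimeB := cen_isPrime (locAt C (cen C W hCW)) W hBW
    obtain ⟨𝔫, h𝔫max, h𝔫le⟩ := Ideal.exists_le_maximal _ hprimeB.ne_top
    have hϖ𝔫 : algebraMap R (locAt C (cen C W hCW)) ϖ ∈ 𝔫 := h𝔫le (by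
      rw [mem_cen]
      exact ValuationSubring.nonunits_le_nonunits.2 hW (unif_mem_nonunits hG₁))
    obtain ⟨a, ha, hna⟩ := exists_mem_rootSet_not_mem_loc hϖ hG₁ hBgood hn hw hw' hw0 𝔫 h𝔫max hϖ𝔫
      (by
        intro V h1 h2 h3 h4
        refine hdiv V h1 h2 (fun c hc => h3 c (le_locAt C _ hc)) (fun s hs => ?_)
        have hs0 : (s : F) ≠ 0 := fun h => hs (by rw [mem_cen, h]; exact W.nonunits.zero_mem)
        have hsB : (s : F)⁻¹ ∈ locAt C (cen C W hCW) :=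
          mem_locAt.2 ⟨s, hs, by rw [inv_mul_cancel₀ hs0]; exact C.one_mem⟩
        exact h3 _ hsB)
    have hcen : (⟨a ^ n * w, ha⟩ : locAt C (cen C W hCW)) ∉ cen (locAt C (cen C W hCW)) W hBW :=
      fun h => hna (h𝔫le h)
    refine ⟨a, ?_, hBW _ ha, inv_mem_of_not_mem_cen hcen⟩
    rintro rfl
    apply hna
    have e : (⟨0 ^ n * w, ha⟩ : locAt C (cen C W hCW)) = 0 :=
      Subtype.ext (by simp [hn.ne'])
    rw [e]
    exact 𝔫.zero_mem

end Fermat.Agent.LP.PL.Good
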