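import Fermat.Agent.LP.PL.Good.Main
import Fermat.Agent.LP.PL.Loc.Defs
import Fermat.Agent.GS.Inst.Main
import Fermat.Agent.GR.D.Top.CaseH2

/-!
# LP-PL-GOOD: the export (E) in the language of `LP/PL/Loc/Defs.lean`

`good_pdiv`: `L` ANY intermediate field, `e ∈ 𝔭₂` a unit of `V`: every Kummer function (over `Q̄`, not necessarily defined over `L`)
is a unit of `V` times an `n`-th power.
-/

set_option autoImplicit false
set_option synthInstance.maxHeartbeats 400000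
set_option linter.unusedSectionVars false

noncomputable section

namespace Fermat.Agent.LP.PL.Good

open Fermat.Agent.GR Fermat.Agent.GR.E Fermat.Agent.GR.S.R Fermat.Agent.GR.D.Vert Fermat.Agent.GS
  Fermat.Agent.GT Fermat.Agent.GT.Brg Fermat.Agent.C36.Unit Fermat.Agent.LP.EIS ModularCurve

variable {A : ValuationSubring Qb} {p N0 : ℕ} [NeZero (p * N0)]
  {𝒪 V : ValuationSubring (FF Qb (p * N0))}

/-- the parameter of the chart over `Q̄`. -/
theorem toQb_tauL (L : IntermediateField ℚ Qb) (hr0 : BaseCase.two.r ∣ N0) (ε : ℤ)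
    (hmem : baseFn Qb Fermat.Agent.Lib.Hauptmodul.h2 ∈ FF Qb (p * N0)) :
    toQb L (p * N0) (tauL p N0 L hr0 ε) =
      (⟨baseFn Qb Fermat.Agent.Lib.Hauptmodul.h2, hmem⟩ : FF Qb (p * N0)) ^ ε := by
  have hmemL : baseFn L Fermat.Agent.Lib.Hauptmodul.h2 ∈ FF L (p * N0) := by
    rw [GR.D.Top.CaseH2_baseFn]
    have := (Val.up (Val.dvd_q0 p N0) (BaseCase.two.tF L hr0)).2
    rwa [Val.coe_up, BaseCase.coe_tF, BaseCase.t_two] at this
  have h1 : tauL p N0 L hr0 ε =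
      (⟨baseFn L Fermat.Agent.Lib.Hauptmodul.h2, hmemL⟩ : FF L (p * N0)) ^ ε := by
    have h2 : Val.up (Val.dvd_q0 p N0) (BaseCase.two.tF L hr0) =
        (⟨baseFn L Fermat.Agent.Lib.Hauptmodul.h2, hmemL⟩ : FF L (p * N0)) := by
      apply Subtype.ext
      rw [Val.coe_up, BaseCase.coe_tF, BaseCase.t_two]
      exact (GR.D.Top.CaseH2_baseFn L).symm
    rw [← h2]
    exact map_zpow₀ (IntermediateField.inclusion (GT.EMB.FF_mono L (Val.dvd_q0 p N0))) _ ε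
  rw [h1, map_zpow₀, BR7_mapFF_baseFn L (p * N0) _ hmemL hmem]

/-- an element of `𝔭₂` over `L` gives an element of the maximal ideal of the second Gauss ring. -/
theorem wQ_toQb_mem_nonunits (hp : p.Prime) (hpN : ¬ p ∣ N0) (hA : A.LiesOverPrime p)
    (h𝒪 : IsGaussRing A (p * N0) 𝒪) {w : FF Qb (p * N0) ≃ₐ[Qb] FF Qb (p * N0)}
    (hw : IsWQ Qb p N0 w) (L : IntermediateField ℚ Qb) [IsDiscreteValuationRing (RL A L)]
    {e : FF L (p * N0)}
    (he2 : e / piL p N0 A L ∈ Val.Ozero' (RL A L) p N0) :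
    w (toQb L (p * N0) e) ∈ 𝒪.nonunits := by
  have hcop : p.Coprime N0 := (Nat.Prime.coprime_iff_not_dvd hp).2 hpN
  obtain ⟨ι⟩ := nonempty_Qbar_hom
  have hwL : IsWQ L p N0 (GT.EMB.wQ L p N0) := GS.isWQ_wQ (ι.comp (algebraMap L Qb)) hcop
  have hcomm := hwL.mapFF_comm ι (algebraMap L Qb) hcop hw e
  have h1 : GT.EMB.wQ L p N0 (e / piL p N0 A L) ∈ gaussO (RL A L) (p * N0) := he2
  have hπ : GT.EMB.wQ L p N0 (piL p N0 A L) = piL p N0 A L :=
    (GT.EMB.wQ L p N0).commutes _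
  have h3 : mapFF (algebraMap L Qb) (p * N0) (piL p N0 A L) =
      algebraMap Qb (FF Qb (p * N0)) (p : Qb) := by
    rw [mapFF_algebraMap]
    simp
  have hπ0 : piL p N0 A L ≠ 0 := by
    intro h
    rw [h, map_zero] at h3
    have h4 : (p : Qb) = 0 := by
      have := h3.symm
      rwa [map_eq_zero] at this
    exact hp.ne_zero (by exact_mod_cast h4)
  have h2 : GT.EMB.wQ L p N0 e = piL p N0 A L * GT.EMB.wQ L p N0 (e / piL p N0 A L) := by
    rw [map_div₀, hπ, mul_div_cancel₀ _ hπ0]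
  rw [← hcomm, h2, map_mul, h3]
  rw [mul_comm (algebraMap Qb (FF Qb (p * N0)) (p : Qb))]
  exact VExt_mul_mem_nonunits (Tr3_mapFF_mem h𝒪 L _ (gaussO_spec (RL A L) (p * N0)) h1) (const_mem_nonunits h𝒪 hA)

/-- **(E)** -/
theorem good_pdiv [NeZero N0] (hp : p.Prime) (hpN : ¬ p ∣ N0) (h2 : 2 ∣ N0)
    (hA : A.LiesOverPrime p) (h𝒪 : IsGaussRing A (p * N0) 𝒪) (hV : V ≤ 𝒪)
    (L : IntermediateField ℚ Qb) [IsDiscreteValuationRing (RL A L)] (hr0 : BaseCase.two.r ∣ N0)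
    {ε : ℤ} (hε : ε = 1 ∨ ε = -1)
    (hτV : toQb L (p * N0) (tauL p N0 L hr0 ε) ∈ V)
    {e : FF L (p * N0)} (he : e ∈ chL p N0 A L hr0 ε) (he0 : e ≠ 0)
    (he2 : e / piL p N0 A L ∈ Val.Ozero' (RL A L) p N0) (heV : (toQb L (p * N0) e)⁻¹ ∈ V)
    {n : ℕ} (hn : 0 < n) {u : FF Qb (p * N0)}
    (hK : IsKummer (N := p * N0) n (u : LaurentSeries Qb)) : PDivAt V n u := by
  have hM := GS.Inst.hasNodalModel_h2 hp hpN h2 A hA
  have hcop : p.Coprime N0 := (Nat.Prime.coprime_iff_not_dvd hp).2 hpN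
  obtain ⟨ι⟩ := nonempty_Qbar_hom
  have hw : IsWQ Qb p N0 (GT.EMB.wQ Qb p N0) := GS.isWQ_wQ ι hcop
  have hx := toQb_tauL (p := p) L hr0 ε (hM.mem Qb)
  refine pdivAt_of_goodAt hp hA hcop _ hM h𝒪 hw hV
    (x := toQb L (p * N0) (tauL p N0 L hr0 ε)) ?_ hτV ?_ hn hK
  · rw [hx]
    rcases hε with rfl | rfl
    · left
      rw [zpow_one]
    · right
      rw [zpow_neg_one]
  · exact ⟨toQb L (p * N0) e, mapFF_mem_chart A (p * N0) L _ e he, (map_ne_zero _).2 he0,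
      wQ_toQb_mem_nonunits hp hpN hA h𝒪 hw L he2, heV⟩

end Fermat.Agent.LP.PL.Good
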