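import Fermat.Agent.LP.PL.Good.Abs
import Fermat.Agent.GR.S.R.Tr1
import Fermat.Agent.GR.S.R.Tr3
import Fermat.Agent.GR.S.R.Gauss
import Fermat.Agent.GS.Tower.Basic
import Fermat.Agent.LP.Old.FinRes

/-!
# LP-PL-GOOD, file Level: restriction of a valuation subring `V ≤ 𝒪` of `FF Q̄ N` to a finite level `FF L N`

`𝒪` the Gauss ring of `A` (`GR.S.R.IsGaussRing A N 𝒪`), `A` above `p`.

* `exists_pow_sub_one_mem`: the powers `c ^ i` lie in `ℚ⟮c⟯`, so `(minpoly ℚ (c ^ i)).natDegree ≤ finrank ℚ ℚ⟮c⟯`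
  (`IntermediateField.adjoin.finrank`, `minpoly.natDegree_le` for the element `⟨c ^ i, _⟩` of `ℚ⟮c⟯` + `minpoly.algebraMap_eq`);
  `LP.Old.FinRes_of_degree` gives a finite set `Z` of residues; pigeonhole (`Finite.exists_ne_map_eq_of_infinite` for a choice function `ℕ → Z`): `i < j`,
  `c ^ i - c ^ j ∈ 𝔪_A`; `c` is a unit of `A`: `c ^ (j - i) - 1 = - (c⁻¹) ^ i * (c ^ i - c ^ j)`.
* `const_mem_nonunits`: `h𝒪.spec'` with `f = C c`, `g = 1` (`Gauss_isPrim_one`; `HahnSeries.coeff_C`/`single`; coercion of `algebraMap`: see `GR/S/R/Main.lean`, `hC`).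
* `const_mem`: `c ∈ 𝔪_A`: `const_mem_nonunits`, `𝔪_𝒪 ⊆ 𝔪_V ⊆ V`.  Otherwise `c ^ m - 1 ∈ 𝔪_A`, so `(algebraMap c) ^ m ∈ V`, and `V` is integrally closed
  (`V.valuation_le_one_iff`, `pow_le_one_iff_of_nonneg`/`pow_le_one_iff`).
* `vdiv_const`: `c = γ ^ n` (`IsAlgClosed.exists_pow_nat_eq`), `EIS.vdiv_pow_self`.
* `resV_le`: `GR.S.R.mapFF_mem_iff`.   * `chart_le_resV`: `GS.chart_le_valuationSubring`, `GR.S.R.mapFF_algebraMap`.
* `exists_const_mul_unit`: `GR.S.R.Gauss_exists_normalized`: `u * g = C κ * f`, `u⁻¹ * f = C κ⁻¹ * g`, `f`, `g` primitive; use `h𝒪.spec`.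
-/

set_option autoImplicit false
set_option synthInstance.maxHeartbeats 400000

noncomputable section

namespace Fermat.Agent.LP.PL.Good

open Fermat.Agent.GR Fermat.Agent.GR.E Fermat.Agent.GR.S.R Fermat.Agent.GS Fermat.Agent.LP.EIS
  ModularCurve

variable {A : ValuationSubring Qb} {N : ℕ} {𝒪 V : ValuationSubring (FF Qb N)} {p : ℕ}

theorem GoodLevel_natDegree_pow_le (c : Qb) (i : ℕ) :
    (minpoly ℚ (c ^ i)).natDegree ≤ Module.finrank ℚ (IntermediateField.adjoin ℚ {c}) := by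
  have halg : Algebra.IsAlgebraic ℚ Qb := AlgebraicClosure.isAlgebraic ℚ
  have hint : IsIntegral ℚ c := (halg.isAlgebraic c).isIntegral
  have : FiniteDimensional ℚ (IntermediateField.adjoin ℚ {c}) :=
    IntermediateField.adjoin.finiteDimensional hint
  have h := minpoly.natDegree_le (A := ℚ)
    (⟨c ^ i, pow_mem (IntermediateField.mem_adjoin_simple_self ℚ c) i⟩ :
      IntermediateField.adjoin ℚ {c})
  have e := IntermediateField.minpoly_eq (K := ℚ) (L := Qb)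
    (⟨c ^ i, pow_mem (IntermediateField.mem_adjoin_simple_self ℚ c) i⟩ :
      IntermediateField.adjoin ℚ {c})
  exact (congrArg Polynomial.natDegree e).symm.le.trans h

theorem exists_pow_sub_one_mem (hp : p.Prime) (hA : A.LiesOverPrime p) {c : Qb} (hc : c ∈ A)
    (hc' : c ∉ A.nonunits) : ∃ m : ℕ, 0 < m ∧ c ^ m - 1 ∈ A.nonunits := by
  classical
  obtain ⟨Z, -, hZ⟩ := LP.Old.FinRes_of_degree A p hp hA
    (Module.finrank ℚ (IntermediateField.adjoin ℚ {c}))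
  have hex : ∀ i : ℕ, ∃ z : Z, c ^ i - (z : Qb) ∈ A.nonunits := by
    intro i
    obtain ⟨z, hz, h⟩ := hZ (c ^ i) (A.pow_mem hc i) (GoodLevel_natDegree_pow_le c i)
    exact ⟨⟨z, hz⟩, h⟩
  choose f hf using hex
  have hvc : A.valuation c = 1 := by
    refine le_antisymm ((A.valuation_le_one_iff c).2 hc) (not_lt.1 fun h => hc' ?_)
    exact h
  have key : ∀ i j : ℕ, i < j → f i = f j → c ^ (j - i) - 1 ∈ A.nonunits := by
    intro i j hij hfij
    have h1 : A.valuation ((c ^ j - (f j : Qb)) - (c ^ i - (f i : Qb))) < 1 :=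
      Valuation.map_sub_lt _ (hf j) (hf i)
    have h2 : (c ^ j - (f j : Qb)) - (c ^ i - (f i : Qb)) = c ^ i * (c ^ (j - i) - 1) := by
      rw [hfij, mul_sub, ← pow_add, Nat.add_sub_cancel' hij.le]
      ring
    rw [h2, map_mul, map_pow, hvc, one_pow, one_mul] at h1
    exact h1
  obtain ⟨i, j, hij, hfij⟩ := Finite.exists_ne_map_eq_of_infinite f
  rcases lt_or_gt_of_ne hij with h | h
  · exact ⟨j - i, Nat.sub_pos_of_lt h, key i j h hfij⟩
  · exact ⟨i - j, Nat.sub_pos_of_lt h, key j i h hfij.symm⟩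

theorem GoodLevel_coe_algebraMap (c : Qb) :
    ((algebraMap Qb (FF Qb N) c : FF Qb N) : LaurentSeries Qb) = HahnSeries.C c := by
  rw [IntermediateField.coe_algebraMap_apply, algebraMap_laurentSeries_eq_single,
    HahnSeries.C_apply]

theorem const_mem_nonunits (h𝒪 : IsGaussRing A N 𝒪) {c : Qb} (hc : c ∈ A.nonunits) :
    algebraMap Qb (FF Qb N) c ∈ 𝒪.nonunits := by
  rw [h𝒪.spec']
  refine ⟨HahnSeries.C c, 1, ?_, one_mem _, fun n => ?_, Gauss_isPrim_one A, ?_⟩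
  · rw [← GoodLevel_coe_algebraMap (N := N)]
    exact (algebraMap Qb (FF Qb N) c).2
  · rw [HahnSeries.C_apply, HahnSeries.coeff_single]
    split_ifs
    · exact hc
    · change A.valuation 0 < 1
      rw [map_zero]
      exact zero_lt_one
  · rw [GoodLevel_coe_algebraMap, mul_one]

/-- `A ⊆ V`. -/
theorem const_mem (hp : p.Prime) (hA : A.LiesOverPrime p) (h𝒪 : IsGaussRing A N 𝒪) (hV : V ≤ 𝒪)
    {c : Qb} (hc : c ∈ A) : algebraMap Qb (FF Qb N) c ∈ V := by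
  have hsub : ∀ {d : Qb}, d ∈ A.nonunits → algebraMap Qb (FF Qb N) d ∈ V := fun hd =>
    V.nonunits_subset (ValuationSubring.nonunits_le_nonunits.2 hV (const_mem_nonunits h𝒪 hd))
  by_cases hc' : c ∈ A.nonunits
  · exact hsub hc'
  · obtain ⟨m, hm, hcm⟩ := exists_pow_sub_one_mem hp hA hc hc'
    have h1 : (algebraMap Qb (FF Qb N) c) ^ m ∈ V := by
      have h2 := V.add_mem _ _ (hsub hcm) V.one_mem
      rwa [map_sub, map_one, sub_add_cancel, map_pow] at h2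
    rw [← V.valuation_le_one_iff] at h1 ⊢
    rw [map_pow] at h1
    exact (pow_le_one_iff hm.ne').1 h1

theorem vdiv_const (V : ValuationSubring (FF Qb N)) {n : ℕ} (hn : 0 < n) (c : Qb) :
    VDiv V n (algebraMap Qb (FF Qb N) c) := by
  obtain ⟨γ, rfl⟩ := IsAlgClosed.exists_pow_nat_eq c hn
  rw [map_pow]
  exact vdiv_pow_self V n _

theorem exists_const_mul_unit (h𝒪 : IsGaussRing A N 𝒪) {y : FF Qb N} (hy : y ≠ 0) :
    ∃ κ : Qb, κ ≠ 0 ∧ algebraMap Qb (FF Qb N) κ * y ∈ 𝒪 ∧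
      (algebraMap Qb (FF Qb N) κ * y)⁻¹ ∈ 𝒪 := by
  obtain ⟨κ, f, g, hκ, hf, hg, pf, pg, e1, e2⟩ := Gauss_exists_normalized A hy
  have hCC : (HahnSeries.C κ⁻¹ : LaurentSeries Qb) * HahnSeries.C κ = 1 := by
    rw [← map_mul, inv_mul_cancel₀ hκ, map_one]
  have hCC' : (HahnSeries.C κ : LaurentSeries Qb) * HahnSeries.C κ⁻¹ = 1 := by
    rw [← map_mul, mul_inv_cancel₀ hκ, map_one]
  refine ⟨κ⁻¹, inv_ne_zero hκ, ?_, ?_⟩
  · rw [h𝒪.spec]
    refine ⟨f, g, hf, hg, pf.1, pg, ?_⟩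
    rw [MulMemClass.coe_mul, GoodLevel_coe_algebraMap, mul_assoc, e1, ← mul_assoc, hCC, one_mul]
  · rw [mul_inv, ← map_inv₀, inv_inv, h𝒪.spec]
    refine ⟨g, f, hg, hf, pg.1, pf, ?_⟩
    rw [MulMemClass.coe_mul, GoodLevel_coe_algebraMap, mul_assoc, e2, ← mul_assoc, hCC', one_mul]

/-- the restriction of `V` to `FF L N`. -/
def resV (L : IntermediateField ℚ Qb) (V : ValuationSubring (FF Qb N)) :
    ValuationSubring (FF L N) :=
  V.comap (mapFF (algebraMap L Qb) N)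

theorem mem_resV {L : IntermediateField ℚ Qb} {x : FF L N} :
    x ∈ resV L V ↔ mapFF (algebraMap L Qb) N x ∈ V := Iff.rfl

theorem mem_nonunits_resV {L : IntermediateField ℚ Qb} {x : FF L N} :
    x ∈ (resV L V).nonunits ↔ mapFF (algebraMap L Qb) N x ∈ V.nonunits := by
  rw [ValuationSubring.mem_nonunits_iff_or, ValuationSubring.mem_nonunits_iff_or, mem_resV,
    map_inv₀, map_eq_zero]

theorem vdiv_of_resV {L : IntermediateField ℚ Qb} {n : ℕ} {y : FF L N}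
    (h : VDiv (resV L V) n y) : VDiv V n (mapFF (algebraMap L Qb) N y) := by
  obtain ⟨a, ha, h1, h2⟩ := h
  refine ⟨mapFF (algebraMap L Qb) N a, (map_ne_zero _).2 ha, ?_, ?_⟩
  · rw [← map_pow, ← map_mul]
    exact h1
  · rw [← map_pow, ← map_mul, ← map_inv₀]
    exact h2

theorem algebraMap_mem_resV (hp : p.Prime) (hA : A.LiesOverPrime p) (h𝒪 : IsGaussRing A N 𝒪)
    (hV : V ≤ 𝒪) (L : IntermediateField ℚ Qb) (r : A.comap (algebraMap L Qb)) :
    algebraMap (A.comap (algebraMap L Qb)) (FF L N) r ∈ resV L V := by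
  rw [mem_resV, mapFF_algebraMap]
  exact const_mem hp hA h𝒪 hV r.2

theorem chart_le_resV (hp : p.Prime) (hA : A.LiesOverPrime p) (h𝒪 : IsGaussRing A N 𝒪)
    (hV : V ≤ 𝒪) (L : IntermediateField ℚ Qb)
    [IsDiscreteValuationRing (A.comap (algebraMap L Qb))] {xL : FF L N}
    (hx : mapFF (algebraMap L Qb) N xL ∈ V) :
    ∀ c ∈ chart (A.comap (algebraMap L Qb)) ({xL} : Set (FF L N)), c ∈ resV L V := by
  intro c hc
  refine chart_le_valuationSubring (resV L V) (algebraMap_mem_resV hp hA h𝒪 hV L) ?_ hc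
  intro s hs
  rw [Set.mem_singleton_iff] at hs
  rw [hs]
  exact hx

theorem resV_le (h𝒪 : IsGaussRing A N 𝒪) (hV : V ≤ 𝒪) (L : IntermediateField ℚ Qb)
    (𝒪L : ValuationSubring (FF L N))
    (hspec : ∀ u, u ∈ 𝒪L ↔ IsGaussInt (A.comap (algebraMap L Qb)) N u)
    (ϖ : A.comap (algebraMap L Qb)) (hϖ : Irreducible ϖ) (hG : GaussRing ϖ 𝒪L) :
    resV L V ≤ 𝒪L := fun u hu =>
  (mapFF_mem_iff h𝒪 L 𝒪L hspec ϖ hϖ hG u).1 (hV hu)

/-- a finite normal extension containing a given finite extension. -/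
theorem exists_normal_ge (L₀ : IntermediateField ℚ Qb) [FiniteDimensional ℚ L₀] :
    ∃ L : IntermediateField ℚ Qb, L₀ ≤ L ∧ FiniteDimensional ℚ L ∧ Normal ℚ L := by
  have hnorm : Normal ℚ Qb :=
    @IsAlgClosure.normal ℚ (AlgebraicClosure ℚ) _ _ (AlgebraicClosure.instAlgebra ℚ) _
  exact ⟨IntermediateField.normalClosure ℚ L₀ Qb, L₀.le_normalClosure,
    normalClosure.is_finiteDimensional ℚ L₀ Qb, normalClosure.normal ℚ L₀ Qb⟩

end Fermat.Agent.LP.PL.Good
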