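import Fermat.Agent.LP.PL.Good.Level
import Fermat.Agent.GS.Conc.Model
import Fermat.Agent.GS.WQ
import Fermat.Agent.GT.Cert
import Fermat.Agent.GR.E.BR5
import Fermat.Agent.GR.E.BR7
import Fermat.Agent.LP.Iface

/-!
# LP-PL-GOOD, main file: `PDivAt V n u` at the points of the component `∞` which are not nodes
-/

set_option autoImplicit false
set_option synthInstance.maxHeartbeats 400000

noncomputable section

namespace Fermat.Agent.LP.PL.Good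

open Fermat.Agent.GR Fermat.Agent.GR.E Fermat.Agent.GR.S.R Fermat.Agent.GS Fermat.Agent.LP.EIS
  ModularCurve

variable {A : ValuationSubring Qb} {N : ℕ} {𝒪 V : ValuationSubring (FF Qb N)} {p : ℕ}

/-- (E-fin) -/
theorem pdivAt_of_good_fin (h𝒪 : IsGaussRing A N 𝒪) (hV : V ≤ 𝒪)
    (L : IntermediateField ℚ Qb) [IsDiscreteValuationRing (A.comap (algebraMap L Qb))]
    {q : ℕ} {hL : FF L N} {wL : FF L N ≃ₐ[L] FF L N} {𝒪₁ 𝒪₂ : ValuationSubring (FF L N)}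
    (MD : NodalModelData (A.comap (algebraMap L Qb)) q N hL wL 𝒪₁ 𝒪₂)
    (ϖ : A.comap (algebraMap L Qb)) (hϖ : Irreducible ϖ)
    {xL : FF L N} (hxL : xL = hL ∨ xL = hL⁻¹)
    (hCV : ∀ c ∈ chart (A.comap (algebraMap L Qb)) ({xL} : Set (FF L N)), c ∈ resV L V)
    (hgood : ¬ vert ϖ 𝒪₂ (chart (A.comap (algebraMap L Qb)) ({xL} : Set (FF L N))) ≤
      cen (chart (A.comap (algebraMap L Qb)) ({xL} : Set (FF L N))) (resV L V) hCV)
    {n : ℕ} (hn : 0 < n) {yL : FF L N} (hy : yL ∈ 𝒪₁) (hy' : yL⁻¹ ∈ 𝒪₁) (hy0 : yL ≠ 0)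
    (hdiv : ∀ V' : ValuationSubring (FF L N),
      (∀ r : A.comap (algebraMap L Qb), algebraMap _ (FF L N) r ∈ V') →
      (∀ r : A.comap (algebraMap L Qb), (algebraMap _ (FF L N) r)⁻¹ ∈ V') →
      (∀ c ∈ chart (A.comap (algebraMap L Qb)) ({xL} : Set (FF L N)), c ∈ V') →
      (∀ s : chart (A.comap (algebraMap L Qb)) ({xL} : Set (FF L N)),
        s ∉ cen (chart (A.comap (algebraMap L Qb)) ({xL} : Set (FF L N))) (resV L V) hCV →
        (s : FF L N)⁻¹ ∈ V') → VDiv V' n yL) :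
    PDivAt V n (mapFF (algebraMap L Qb) N yL) := by
  have hC : NodalChart ϖ 𝒪₁ 𝒪₂ (chart (A.comap (algebraMap L Qb)) ({xL} : Set (FF L N))) := by
    rcases hxL with rfl | rfl
    · exact MD.nodal0 ϖ hϖ
    · exact MD.nodal1 ϖ hϖ
  exact vdiv_of_resV (vdiv_of_good hϖ (MD.gauss₁ ϖ hϖ) (MD.gauss₂ ϖ hϖ) hC
    (resV_le h𝒪 hV L 𝒪₁ MD.spec ϖ hϖ (MD.gauss₁ ϖ hϖ)) hCV hgood hn hy hy' hy0 hdiv)

/-- `V` is centred at a point of the chart of `x` which does not lie on the second component. -/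
def GoodAt (A : ValuationSubring Qb) (𝒪 : ValuationSubring (FF Qb N))
    (w : FF Qb N ≃ₐ[Qb] FF Qb N) (V : ValuationSubring (FF Qb N)) (x : FF Qb N) : Prop :=
  ∃ e ∈ chart A ({x} : Set (FF Qb N)), e ≠ 0 ∧ w e ∈ 𝒪.nonunits ∧ e⁻¹ ∈ V

/-- not good ⟹ node, at every finite level. -/
theorem vert_le_cen_of_not_goodAt (h𝒪 : IsGaussRing A N 𝒪) {w : FF Qb N ≃ₐ[Qb] FF Qb N}
    (L : IntermediateField ℚ Qb) [IsDiscreteValuationRing (A.comap (algebraMap L Qb))]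
    {q : ℕ} {hL : FF L N} {wL : FF L N ≃ₐ[L] FF L N} {𝒪₁ 𝒪₂ : ValuationSubring (FF L N)}
    (MD : NodalModelData (A.comap (algebraMap L Qb)) q N hL wL 𝒪₁ 𝒪₂)
    (hwL : ∀ u, mapFF (algebraMap L Qb) N (wL u) = w (mapFF (algebraMap L Qb) N u))
    (ϖ : A.comap (algebraMap L Qb)) (hϖ : Irreducible ϖ) {xL : FF L N}
    (hxL : xL = hL ∨ xL = hL⁻¹)
    (hCV : ∀ c ∈ chart (A.comap (algebraMap L Qb)) ({xL} : Set (FF L N)), c ∈ resV L V)
    (hbad : ¬ GoodAt A 𝒪 w V (mapFF (algebraMap L Qb) N xL)) :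
    vert ϖ 𝒪₂ (chart (A.comap (algebraMap L Qb)) ({xL} : Set (FF L N))) ≤
      cen (chart (A.comap (algebraMap L Qb)) ({xL} : Set (FF L N))) (resV L V) hCV := by
  intro c hc
  by_contra hcen
  apply hbad
  have hC : NodalChart ϖ 𝒪₁ 𝒪₂ (chart (A.comap (algebraMap L Qb)) ({xL} : Set (FF L N))) := by
    rcases hxL with rfl | rfl
    · exact MD.nodal0 ϖ hϖ
    · exact MD.nodal1 ϖ hϖ
  have hc0 : (c : FF L N) ≠ 0 := by
    intro h0
    apply hcen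
    rw [mem_cen, h0]
    exact (resV L V).nonunits.zero_mem
  refine ⟨mapFF (algebraMap L Qb) N c, GR.S.R.mapFF_mem_chart A N L xL c c.2,
    (map_ne_zero _).2 hc0, ?_, ?_⟩
  · rw [← hwL, GR.S.R.mapFF_mem_nonunits_iff h𝒪 L 𝒪₁ MD.spec ϖ hϖ (MD.gauss₁ ϖ hϖ)]
    have h1 : (c : FF L N) / algebraMap (A.comap (algebraMap L Qb)) (FF L N) ϖ ∈ 𝒪₂ :=
      (mem_vert hC.le₂ c).1 hc
    have h2 : wL ((c : FF L N) / algebraMap (A.comap (algebraMap L Qb)) (FF L N) ϖ) ∈ 𝒪₁ :=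
      (MD.opp _).1 h1
    have h3 : wL (algebraMap (A.comap (algebraMap L Qb)) (FF L N) ϖ) =
        algebraMap (A.comap (algebraMap L Qb)) (FF L N) ϖ := by
      have h4 : algebraMap (A.comap (algebraMap L Qb)) (FF L N) ϖ =
          algebraMap L (FF L N) (ϖ : L) := rfl
      rw [h4, AlgEquiv.commutes]
    have e : wL (c : FF L N) =
        wL ((c : FF L N) / algebraMap (A.comap (algebraMap L Qb)) (FF L N) ϖ) *
          algebraMap (A.comap (algebraMap L Qb)) (FF L N) ϖ := by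
      conv_rhs => rw [← h3, ← map_mul]
      rw [h3, div_mul_cancel₀ _ (MD.gauss₁ ϖ hϖ).ne_zero]
    rw [e]
    exact VExt_mul_mem_nonunits h2 (unif_mem_nonunits (MD.gauss₁ ϖ hϖ))
  · have h5 := inv_mem_of_not_mem_cen hcen
    rw [mem_resV, map_inv₀] at h5
    exact h5

/-- good ⟹ not a node, at every sufficiently large finite level. -/
theorem exists_level_of_goodAt (h𝒪 : IsGaussRing A N 𝒪) {w : FF Qb N ≃ₐ[Qb] FF Qb N}
    {x : FF Qb N} (hgood : GoodAt A 𝒪 w V x) :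
    ∃ L₀ : IntermediateField ℚ Qb, FiniteDimensional ℚ L₀ ∧ ∀ L : IntermediateField ℚ Qb, L₀ ≤ L →
      ∀ [IsDiscreteValuationRing (A.comap (algebraMap L Qb))]
      {q : ℕ} {hL : FF L N} {wL : FF L N ≃ₐ[L] FF L N} {𝒪₁ 𝒪₂ : ValuationSubring (FF L N)}
      (_ : NodalModelData (A.comap (algebraMap L Qb)) q N hL wL 𝒪₁ 𝒪₂)
      (_ : ∀ u, mapFF (algebraMap L Qb) N (wL u) = w (mapFF (algebraMap L Qb) N u))
      (ϖ : A.comap (algebraMap L Qb)) (_ : Irreducible ϖ) {xL : FF L N}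
      (_ : mapFF (algebraMap L Qb) N xL = x)
      (hCV : ∀ c ∈ chart (A.comap (algebraMap L Qb)) ({xL} : Set (FF L N)), c ∈ resV L V),
      ¬ vert ϖ 𝒪₂ (chart (A.comap (algebraMap L Qb)) ({xL} : Set (FF L N))) ≤
        cen (chart (A.comap (algebraMap L Qb)) ({xL} : Set (FF L N))) (resV L V) hCV := by
  obtain ⟨e, he, he0, hwe, heV⟩ := hgood
  obtain ⟨L₀, hfd, h⟩ := GR.S.R.exists_level_of_mem_chart A N x e he
  refine ⟨L₀, hfd, fun L hL _ q hL' wL 𝒪₁ 𝒪₂ MD hwL ϖ hϖ xL hx hCV hle => ?_⟩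
  obtain ⟨eL, heL, rfl⟩ := h L hL xL hx
  have hG := MD.gauss₁ ϖ hϖ
  have hw1 : wL eL ∈ 𝒪₁.nonunits := by
    rw [← GR.S.R.mapFF_mem_nonunits_iff h𝒪 L 𝒪₁ MD.spec ϖ hϖ hG, hwL]
    exact hwe
  have hfix : wL (algebraMap (A.comap (algebraMap L Qb)) (FF L N) ϖ) =
      algebraMap (A.comap (algebraMap L Qb)) (FF L N) ϖ := by
    have : algebraMap (A.comap (algebraMap L Qb)) (FF L N) ϖ =
        algebraMap L (FF L N) (ϖ : L) := rfl
    rw [this, AlgEquiv.commutes]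
  have hdiv : wL eL / algebraMap (A.comap (algebraMap L Qb)) (FF L N) ϖ ∈ 𝒪₁ := by
    rcases hG.unif (wL eL) (𝒪₁.nonunits_subset hw1) with h1 | h1
    · exact h1
    · rw [ValuationSubring.mem_nonunits_iff_or] at hw1
      rcases hw1 with h0 | h0
      · rw [h0, zero_div]
        exact 𝒪₁.zero_mem
      · exact absurd h1 h0
  have hvert : (⟨eL, heL⟩ : chart (A.comap (algebraMap L Qb)) ({xL} : Set (FF L N))) ∈
      vert ϖ 𝒪₂ (chart (A.comap (algebraMap L Qb)) ({xL} : Set (FF L N))) := by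
    refine Ideal.subset_span ?_
    change eL / algebraMap (A.comap (algebraMap L Qb)) (FF L N) ϖ ∈ 𝒪₂
    rw [MD.opp, map_div₀, hfix]
    exact hdiv
  have hcen := hle hvert
  rw [mem_cen, mem_nonunits_resV, ValuationSubring.mem_nonunits_iff_or] at hcen
  rcases hcen with h0 | h0
  · exact he0 h0
  · exact h0 heV

/-- (E-kum) a Kummer function is a unit times an `n`-th power at every good point. -/
theorem pdivAt_of_goodAt {N1 : ℕ} [NeZero (p * N1)] {𝒪 V : ValuationSubring (FF Qb (p * N1))}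
    (hp : p.Prime) (hA : A.LiesOverPrime p) (hcop : p.Coprime N1) (H : LaurentSeries ℤ)
    (hM : HasNodalModel A p N1 H) (h𝒪 : IsGaussRing A (p * N1) 𝒪)
    {w : FF Qb (p * N1) ≃ₐ[Qb] FF Qb (p * N1)} (hw : IsWQ Qb p N1 w) (hV : V ≤ 𝒪)
    {x : FF Qb (p * N1)}
    (hx : x = ⟨baseFn Qb H, hM.mem Qb⟩ ∨ x = (⟨baseFn Qb H, hM.mem Qb⟩ : FF Qb (p * N1))⁻¹)
    (hxV : x ∈ V) (hgood : GoodAt A 𝒪 w V x) {n : ℕ} (hn : 0 < n) {u : FF Qb (p * N1)}
    (hK : IsKummer (N := p * N1) n (u : LaurentSeries Qb)) : PDivAt V n u := by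
  have hu0 : u ≠ 0 := fun h => hK.1 (by rw [h]; rfl)
  obtain ⟨κ, hκ, h1, h2⟩ := exists_const_mul_unit h𝒪 hu0
  obtain ⟨y, hy⟩ : ∃ y : FF Qb (p * N1), y = algebraMap Qb (FF Qb (p * N1)) κ * u := ⟨_, rfl⟩
  rw [← hy] at h1 h2
  obtain ⟨L₁, hfd₁, hL₁⟩ := exists_level_of_goodAt h𝒪 hgood
  obtain ⟨L₂, hfd₂, hL₂⟩ := GR.S.R.exists_level_of_mem _ y
  haveI := IntermediateField.finiteDimensional_sup L₁ L₂
  obtain ⟨L, hle, hfin, hnorm⟩ := exists_normal_ge (L₁ ⊔ L₂)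
  have hdvr := isDiscreteValuationRing_comap A p hp hA L
  obtain ⟨ι⟩ := nonempty_Qbar_hom
  obtain ⟨wL, hwL⟩ : ∃ w : FF L (p * N1) ≃ₐ[L] FF L (p * N1), IsWQ L p N1 w :=
    ⟨_, isWQ_wQ (ι.comp (algebraMap L Qb)) hcop⟩
  obtain ⟨𝒪₁, 𝒪₂, MD⟩ := hM.model L hdvr wL hwL
  have comm : ∀ u, mapFF (algebraMap L Qb) (p * N1) (wL u) =
      w (mapFF (algebraMap L Qb) (p * N1) u) :=
    fun u => hwL.mapFF_comm ι (algebraMap L Qb) hcop hw u
  obtain ⟨ϖ, hϖ⟩ := IsDiscreteValuationRing.exists_irreducible (A.comap (algebraMap L Qb))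
  have hh := BR7_mapFF_baseFn L (p * N1) H (hM.mem L) (hM.mem Qb)
  obtain ⟨xL, hxL, hxLx⟩ : ∃ xL : FF L (p * N1), (xL = ⟨baseFn L H, hM.mem L⟩ ∨
      xL = (⟨baseFn L H, hM.mem L⟩ : FF L (p * N1))⁻¹) ∧
      mapFF (algebraMap L Qb) (p * N1) xL = x := by
    rcases hx with rfl | rfl
    · exact ⟨_, Or.inl rfl, hh⟩
    · exact ⟨_, Or.inr rfl, by rw [map_inv₀, hh]⟩
  have hCV := chart_le_resV hp hA h𝒪 hV L (xL := xL) (by rw [hxLx]; exact hxV)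
  obtain ⟨yL, hyL⟩ := hL₂ L (le_sup_right.trans hle)
  have hyL1 : yL ∈ 𝒪₁ :=
    (mapFF_mem_iff h𝒪 L 𝒪₁ MD.spec ϖ hϖ (MD.gauss₁ ϖ hϖ) yL).1 (by rw [hyL]; exact h1)
  have hyL2 : yL⁻¹ ∈ 𝒪₁ :=
    (mapFF_mem_iff h𝒪 L 𝒪₁ MD.spec ϖ hϖ (MD.gauss₁ ϖ hϖ) yL⁻¹).1
      (by rw [map_inv₀, hyL]; exact h2)
  have hy0 : y ≠ 0 := by
    rw [hy]
    exact mul_ne_zero ((map_ne_zero _).2 hκ) hu0
  have hyL0 : yL ≠ 0 := by
    rintro rfl
    exact hy0 (by rw [← hyL, map_zero])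
  have hKy : IsKummer (N := p * N1) n (coeffMap (algebraMap L Qb) (yL : LaurentSeries L)) := by
    have e : coeffMap (algebraMap L Qb) (yL : LaurentSeries L) =
        HahnSeries.C κ * (u : LaurentSeries Qb) := by
      have e0 : coeffMap (algebraMap L Qb) (yL : LaurentSeries L) =
          ((mapFF (algebraMap L Qb) (p * N1) yL : FF Qb (p * N1)) : LaurentSeries Qb) := rfl
      rw [e0, hyL, hy, MulMemClass.coe_mul, GoodLevel_coe_algebraMap]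
    rw [e]
    exact (isKummer_C hκ).mul hK
  have hdivL : DivisibleAtPlaces (A.comap (algebraMap L Qb)) n yL :=
    GT.Cert.divisibleAtPlaces_of_isKummer L _ (p * N1) n hn ⟨baseFn L H, hM.mem L⟩ yL
      (by rw [hh]; exact hM.transc) (by rw [hh]; exact hM.finDim) hKy
  have hP : PDivAt V n (mapFF (algebraMap L Qb) (p * N1) yL) :=
    pdivAt_of_good_fin h𝒪 hV L MD ϖ hϖ hxL hCV
      (hL₁ L (le_sup_left.trans hle) MD comm ϖ hϖ hxLx hCV) hn hyL1 hyL2 hyL0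
      (fun V' h1 h2 _ _ => hdivL V' h1 h2)
  rw [hyL] at hP
  have e : u = algebraMap Qb (FF Qb (p * N1)) κ⁻¹ * y := by
    rw [hy, ← mul_assoc, ← map_mul, inv_mul_cancel₀ hκ, map_one, one_mul]
  rw [e]
  exact VDiv.mul (vdiv_const V hn κ⁻¹) hP

end Fermat.Agent.LP.PL.Good
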